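/-
Programme MW (S17), brick (W), final form (helper65): **the `hweak` hypothesis of
`MW.s17_of_geomPackage`**, i.e. weak Mordell–Weil for `2` on `J₀(N)(ℚ)`:
`2 · J₀(N)(ℚ)` has finite index in `J₀(N)(ℚ)`.

* `hweak_of_div` : from the 2-divisibility of `J₀(N)(ℚ̄) = JZero N` (brick DIV);
* `hW` : the shape `hW` consumed by `MW.s17_of_heightData_of_div`.
-/
import Mathlib
import Fermat.Agent.MW.WeakMW65
import Fermat.Agent.MW73.S17Wiring

set_option autoImplicit false

namespace Fermat.Agent.MW.Weak65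

open ModularCurve AlgebraicCurve Fermat.Agent.MW73

/-- **Weak Mordell–Weil for `2`** from the `2`-divisibility of `J₀(N)(ℚ̄)`: exactly the hypothesis
`hweak` of `MW.s17_of_geomPackage`. -/
theorem hweak_of_div (N : ℕ) [NeZero N]
    (hdiv : ∀ x : JZero N, ∃ y : JZero N, 2 • y = x) :
    (nsmulAddMonoidHom (α := JRat N) 2).range.FiniteIndex := by
  haveI : Fact (Nat.Prime 2) := ⟨Nat.prime_two⟩
  exact Fermat.Agent.MW.WeakMW65.weakMW_of_div N 2 fun x _ => hdiv x

/-- The same in the shape `hW` of `MW.s17_of_heightData_of_div`. -/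
theorem hW (N : ℕ) [NeZero N] :
    (∀ x : JZero N, ∃ y : JZero N, 2 • y = x) →
      (nsmulAddMonoidHom (α := JRat N) 2).range.FiniteIndex :=
  hweak_of_div N

/-- Weak Mordell–Weil for an arbitrary prime `p`. -/
theorem hweak_prime_of_div (N : ℕ) [NeZero N] (p : ℕ) [Fact p.Prime]
    (hdiv : ∀ x : JZero N, ∃ y : JZero N, p • y = x) :
    (nsmulAddMonoidHom (α := JRat N) p).range.FiniteIndex :=
  Fermat.Agent.MW.WeakMW65.weakMW_of_div N p fun x _ => hdiv x

end Fermat.Agent.MW.Weak65
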