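/-
Programme MW (S17), brick (W), closed form (helper12 for helper65/helper73):
**weak Mordell–Weil for `2` on `J₀(N)(ℚ)`, unconditionally**:
`hweak N : (nsmulAddMonoidHom (α := JRat N) 2).range.FiniteIndex`
= `Weak65.hweak_of_div` (helper65: Kummer finiteness) ∘ `Div73.jzero_two_divisible`
(helper73/helper5/helper7: divisibility of `J₀(N)(ℚ̄)` through the Jacobian of the model curve).
This is exactly the hypothesis `hweak` of `MW.s17_of_geomPackage`.
-/
import Fermat.Agent.MW.Weak65.Final
import Fermat.Agent.MW.Div73

set_option autoImplicit false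

namespace Fermat.Agent.MW.Weak65

open ModularCurve AlgebraicCurve Fermat.Agent.MW73

/-- **Weak Mordell–Weil for `2` on `J₀(N)(ℚ)`.** -/
theorem hweak (N : ℕ) [NeZero N] :
    (nsmulAddMonoidHom (α := JRat N) 2).range.FiniteIndex :=
  hweak_of_div N (Fermat.Agent.MW.Div73.jzero_two_divisible N)

end Fermat.Agent.MW.Weak65
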